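/-
Lib/EtaUnit (architect helper213).  TASK EU-14 (proofs: helper133).

The Dedekind eta function: basic facts in the form used by this library.
-/
import Fermat.Agent.Lib.EtaUnit.W1
import Fermat.Agent.Lib.EtaUnit.TExp.Level
import Fermat.Agent.Lib.JExpansion

set_option autoImplicit false

namespace Fermat.Agent.Lib.EtaUnit

open UpperHalfPlane ModularCurve Fermat.Agent.S24 Fermat.Agent.S24.B
open scoped MatrixGroups Real Manifold

local notation "η" => ModularForm.eta

/-- `η` on the upper half plane. -/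
noncomputable def etaH (τ : ℍ) : ℂ := η (τ : ℂ)

theorem etaH_ne_zero (τ : ℍ) : etaH τ ≠ 0 := ModularForm.eta_ne_zero τ.2

theorem mdiff_etaH : MDiff etaH := by
  rw [UpperHalfPlane.mdifferentiable_iff]
  refine .congr (fun z hz ↦
    (ModularForm.differentiableAt_eta_of_mem_upperHalfPlaneSet hz).differentiableWithinAt)
    fun z hz ↦ ?_
  simp [etaH, ofComplex_apply_of_im_pos hz]

theorem etaH_pow_24 (τ : ℍ) : etaH τ ^ 24 = ModularForm.discriminant τ := rfl

/-- `η(z) = q^(1/24) ∏ (1 - qⁿ)`. -/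
theorem eta_eq (z : ℂ) :
    η z = Function.Periodic.qParam 24 z *
      Fermat.Agent.Lib.JExpansion.eulerFun (Function.Periodic.qParam 1 z) := by
  rfl

/-- The expansion of `η` in `t = exp (2 π i τ / 24)`: `t * ∏ (1 - t^(24 n))`. -/
noncomputable def etaSer : LaurentSeries Kbar :=
  HahnSeries.single (1 : ℤ) (1 : Kbar) * qExpand Kbar 24 (toL etaProd)

/-- An integral power series converging on the unit disc gives an expansion in `q`. -/
theorem hasTExp_toL_of_ev {P : PowerSeries ℤ} {F : ℂ → ℂ}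
    (h : ∀ q : ℂ, ‖q‖ < 1 → Fermat.Agent.Lib.JExpansion.Ev q (Fermat.Agent.Lib.JExpansion.toC P)
      (F q)) :
    HasTExp 1 (fun τ : ℍ => F (Function.Periodic.qParam 1 τ)) (toL P) := by
  intro τ
  have hq : ‖Function.Periodic.qParam 1 (τ : ℂ)‖ < 1 :=
    Function.Periodic.norm_qParam_lt_one one_pos τ.im_pos
  have h1 := h _ hq
  unfold Fermat.Agent.Lib.JExpansion.Ev at h1
  rw [← (Nat.cast_injective (R := ℤ)).hasSum_iff]
  · refine h1.congr_fun fun m => ?_
    simp only [Function.comp_apply, toL]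
    rw [HahnSeries.ofPowerSeries_apply_coeff, zpow_natCast, PowerSeries.coeff_map,
      PowerSeries.coeff_map, eq_intCast, eq_intCast, map_intCast, Nat.cast_one]
  · intro x hx
    have hlt : x < 0 := by
      by_contra hge
      rw [not_lt] at hge
      exact hx ⟨x.toNat, Int.toNat_of_nonneg hge⟩
    have h0 : (toL P).coeff x = 0 := by
      rw [toL, PowerSeries.coeff_coe, if_pos hlt]
    rw [h0, map_zero, zero_mul]

/-- (`eta_eq`, `Fermat.Agent.Lib.JExpansion.ev_eulerFun`.) -/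
theorem hasTExp_etaH : HasTExp 24 etaH etaSer := by
  have h1 : HasTExp 1 (fun τ : ℍ => Fermat.Agent.Lib.JExpansion.eulerFun
      (Function.Periodic.qParam 1 τ)) (toL etaProd) :=
    hasTExp_toL_of_ev (fun q hq => Fermat.Agent.Lib.JExpansion.ev_eulerFun hq)
  have h2 : HasTExp 24 (fun τ : ℍ => Fermat.Agent.Lib.JExpansion.eulerFun
      (Function.Periodic.qParam 1 τ)) (qExpand Kbar 24 (toL etaProd)) :=
    HasTExp.level_mul (M := 1) 24 h1
  have h3 := (HasTExp.single (N := 24) 1 (1 : Kbar)).mul h2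
  have h4 : etaH = (fun τ : ℍ => iota 1 * Function.Periodic.qParam (24 : ℕ) τ ^ (1 : ℤ)) *
      (fun τ : ℍ => Fermat.Agent.Lib.JExpansion.eulerFun (Function.Periodic.qParam 1 τ)) := by
    funext τ
    simp only [Pi.mul_apply, etaH, eta_eq, map_one, one_mul, zpow_one, Nat.cast_ofNat]
  rw [h4]
  exact h3

theorem eta_add_one (z : ℂ) : η (z + 1) = Complex.exp (2 * π * Complex.I / 24) * η z := by
  rw [eta_eq, eta_eq]
  have h1 : Function.Periodic.qParam 1 (z + 1) = Function.Periodic.qParam 1 z := by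
    simp only [Function.Periodic.qParam]
    have h0 : 2 * (π : ℂ) * Complex.I * (z + 1) / ((1 : ℝ) : ℂ)
        = 2 * (π : ℂ) * Complex.I * z / ((1 : ℝ) : ℂ) + 2 * (π : ℂ) * Complex.I := by
      push_cast
      ring
    rw [h0, Complex.exp_add, Complex.exp_two_pi_mul_I, mul_one]
  have h2 : Function.Periodic.qParam 24 (z + 1) =
      Complex.exp (2 * π * Complex.I / 24) * Function.Periodic.qParam 24 z := by
    simp only [Function.Periodic.qParam]
    rw [← Complex.exp_add]
    congr 1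
    push_cast
    ring
  rw [h1, h2, mul_assoc]

theorem etaBasic_sqrt_sq (z : ℂ) : Complex.sqrt z ^ 2 = z := by
  rw [Complex.sqrt]
  exact Complex.cpow_ofNat_inv_pow z 2

theorem eta_neg_inv (z : ℂ) (hz : 0 < z.im) :
    η (-1 / z) = (Complex.sqrt Complex.I)⁻¹ * (Complex.sqrt z * η z) := by
  have := ModularForm.eta_comp_eq_csqrt_I_inv (show z ∈ upperHalfPlaneSet from hz)
  simpa using this

/-- (`ModularForm.eta_comp_eq_csqrt_I_inv`; `Complex.sqrt z ^ 2 = z`.) -/
theorem eta_sq_neg_inv (z : ℂ) (hz : 0 < z.im) : η (-1 / z) ^ 2 = -Complex.I * z * η z ^ 2 := by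
  rw [eta_neg_inv z hz, mul_pow, mul_pow, inv_pow, etaBasic_sqrt_sq, etaBasic_sqrt_sq, Complex.inv_I]
  ring

theorem etaBasic_sqrt_natCast_mul (n : ℕ) (hn : 0 < n) (z : ℂ) (hz : z ≠ 0) :
    Complex.sqrt (n * z) = (Real.sqrt n : ℂ) * Complex.sqrt z := by
  have hn' : (0 : ℝ) < n := Nat.cast_pos.mpr hn
  have hn0 : (n : ℂ) ≠ 0 := Nat.cast_ne_zero.mpr hn.ne'
  rw [sqrt_eq_exp (mul_ne_zero hn0 hz), sqrt_eq_exp hz]
  have h1 : Complex.log ((n : ℂ) * z) = (Real.log n : ℂ) + Complex.log z := by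
    have := Complex.log_ofReal_mul hn' hz
    simpa using this
  rw [h1, add_div, Complex.exp_add]
  congr 1
  have h2 : ((Real.log n : ℂ) / 2) = ((Real.log n / 2 : ℝ) : ℂ) := by push_cast; ring
  rw [h2, ← Complex.ofReal_exp, Real.exp_half, Real.exp_log hn']

/-- (`ModularForm.eta_comp_eq_csqrt_I_inv` at `z` and at `n z`;
`Complex.sqrt (n z) * Complex.sqrt z = √n * z` because `log (n z) = log n + log z`.) -/
theorem eta_neg_inv_mul (n : ℕ) (hn : 0 < n) (z : ℂ) (hz : 0 < z.im) :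
    η (-1 / (n * z)) * η (-1 / z) = (Real.sqrt n : ℂ) * (-Complex.I * z) * (η (n * z) * η z) := by
  have hz0 : z ≠ 0 := by
    rintro rfl
    simp at hz
  have hnz : 0 < ((n : ℂ) * z).im := by
    have : ((n : ℂ) * z).im = n * z.im := by simp
    rw [this]
    exact mul_pos (Nat.cast_pos.mpr hn) hz
  rw [eta_neg_inv z hz, eta_neg_inv _ hnz, etaBasic_sqrt_natCast_mul n hn z hz0]
  have h1 := etaBasic_sqrt_sq z
  have h2 := etaBasic_sqrt_sq Complex.I
  have h3 : (Complex.sqrt Complex.I)⁻¹ * (Complex.sqrt Complex.I)⁻¹ = -Complex.I := by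
    rw [← mul_inv, ← sq, h2, Complex.inv_I]
  calc (Complex.sqrt Complex.I)⁻¹ * ((Real.sqrt n : ℂ) * Complex.sqrt z * η (n * z)) *
        ((Complex.sqrt Complex.I)⁻¹ * (Complex.sqrt z * η z))
      = ((Complex.sqrt Complex.I)⁻¹ * (Complex.sqrt Complex.I)⁻¹) * (Real.sqrt n : ℂ) *
          (Complex.sqrt z ^ 2) * (η (n * z) * η z) := by ring
    _ = (Real.sqrt n : ℂ) * (-Complex.I * z) * (η (n * z) * η z) := by rw [h3, h1]; ring

end Fermat.Agent.Lib.EtaUnit
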