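/-
Lib/EtaUnit (architect helper213).  Definition of eta quotients; TASK EU-16 (the three lemmas).
SKELETON FILE: statements are frozen interfaces.
-/
import Fermat.Agent.Lib.EtaUnit.Eta.Basic
import Fermat.Agent.S28.Analytic.EtaQuotN

set_option autoImplicit false

namespace Fermat.Agent.Lib.EtaUnit

open UpperHalfPlane ModularCurve Fermat.Agent.S24 Fermat.Agent.S24.B
open scoped MatrixGroups Real Manifold

local notation "η" => ModularForm.eta

variable {ι : Type*} (s : Finset ι) (D : ι → ℕ) (r : ι → ℤ)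

/-- The eta quotient `∏ i, η(D i τ) ^ r i`. -/
noncomputable def etaQuot (τ : ℍ) : ℂ := ∏ i ∈ s, η ((D i : ℂ) * τ) ^ r i

variable {s D}

/-- Dilation by a positive integer preserves the upper half plane. -/
theorem etaQuot_im_pos {d : ℕ} (hd : 0 < d) {z : ℂ} (hz : 0 < z.im) : 0 < ((d : ℂ) * z).im := by
  have : ((d : ℂ) * z).im = d * z.im := by simp
  rw [this]
  positivity

theorem etaQuot_ne_zero (hD : ∀ i ∈ s, 0 < D i) (τ : ℍ) : etaQuot s D r τ ≠ 0 :=
  Finset.prod_ne_zero_iff.mpr fun i hi =>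
    zpow_ne_zero _ (ModularForm.eta_ne_zero (etaQuot_im_pos (hD i hi) τ.2))

theorem mdiff_etaQuot (hD : ∀ i ∈ s, 0 < D i) : MDiff (etaQuot s D r) := by
  rw [UpperHalfPlane.mdifferentiable_iff]
  have h1 : ∀ i ∈ s, DifferentiableOn ℂ (fun z : ℂ => η ((D i : ℂ) * z) ^ r i) {z | 0 < z.im} := by
    intro i hi
    refine DifferentiableOn.zpow ?_ (Or.inl fun z hz =>
      ModularForm.eta_ne_zero (etaQuot_im_pos (hD i hi) hz))
    intro z hz
    have h2 : DifferentiableAt ℂ η ((D i : ℂ) * z) :=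
      ModularForm.differentiableAt_eta_of_mem_upperHalfPlaneSet (etaQuot_im_pos (hD i hi) hz)
    have h3 : DifferentiableAt ℂ (fun z : ℂ => (D i : ℂ) * z) z := by fun_prop
    exact (h2.comp z h3).differentiableWithinAt
  refine (DifferentiableOn.fun_finsetProd h1).congr fun z hz => ?_
  simp only [Function.comp_apply, etaQuot]
  rw [ofComplex_apply_of_im_pos hz]

/-- The 24-th power is the `Δ`-quotient of S28. -/
theorem etaQuot_pow_24 (hD : ∀ i ∈ s, 0 < D i) (τ : ℍ) :
    etaQuot s D r τ ^ 24 = Fermat.Agent.S28.EtaQuot.etaQ s D r τ := by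
  rw [etaQuot, Fermat.Agent.S28.EtaQuot.etaQ, ← Finset.prod_pow]
  refine Finset.prod_congr rfl fun i hi => ?_
  rw [ofComplex_apply_of_im_pos (etaQuot_im_pos (hD i hi) τ.2)]
  change _ = (η ((D i : ℂ) * τ) ^ 24) ^ r i
  rw [← zpow_natCast, ← zpow_natCast, ← zpow_mul, ← zpow_mul, mul_comm (r i)]

end Fermat.Agent.Lib.EtaUnit
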