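/-
Lib/EtaUnit (architect helper213).  TASK EU-15.
Proved by helper234.
-/
import Mathlib

set_option autoImplicit false

namespace Fermat.Agent.Lib.EtaUnit

open UpperHalfPlane

/-- Two continuous functions on `ℍ` whose `n`-th powers are proportional are proportional.
PROOF.  `f / g` is continuous with values in the finite set `{w | w ^ n = K}`
(`Polynomial.nthRoots` / `(Polynomial.X ^ n - C K).rootSet` is finite), and `ℍ` is connected
(`IsPreconnected.constant_of_mapsTo` with the discrete topology on a finite subset, or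
`IsPreconnected.eqOn_const_of_mapsTo`). -/
theorem exists_const_of_pow_eq {f g : ℍ → ℂ} (hf : Continuous f) (hg : Continuous g)
    (hg0 : ∀ τ, g τ ≠ 0) {n : ℕ} (hn : 0 < n) {K : ℂ} (h : ∀ τ, f τ ^ n = K * g τ ^ n) :
    ∃ κ : ℂ, κ ^ n = K ∧ ∀ τ, f τ = κ * g τ := by
  have hpow : ∀ τ, (f τ / g τ) ^ n = K := by
    intro τ
    rw [div_pow, h τ, mul_div_assoc, div_self (pow_ne_zero n (hg0 τ)), mul_one]
  have hfin : {w : ℂ | w ^ n = K}.Finite := by
    have h1 : {w : ℂ | w ^ n = K} ⊆ ((Polynomial.nthRoots n K).toFinset : Set ℂ) := by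
      intro w hw
      simp only [Finset.mem_coe, Multiset.mem_toFinset]
      exact (Polynomial.mem_nthRoots hn).2 hw
    exact (Finset.finite_toSet _).subset h1
  have hc : Continuous fun τ => f τ / g τ := hf.div hg hg0
  have hconst : ∀ τ : ℍ, f τ / g τ = f UpperHalfPlane.I / g UpperHalfPlane.I := by
    intro τ
    exact isPreconnected_univ.constant_of_mapsTo (T := {w : ℂ | w ^ n = K}) hfin.isDiscrete
      hc.continuousOn
      (fun σ _ => hpow σ) (Set.mem_univ τ) (Set.mem_univ _)
  refine ⟨f UpperHalfPlane.I / g UpperHalfPlane.I, hpow _, fun τ => ?_⟩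
  rw [← hconst τ, div_mul_cancel₀ _ (hg0 τ)]

end Fermat.Agent.Lib.EtaUnit
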