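/-
Lib/EtaUnit (architect helper213).  TASK EU-18.
Proof: helper195.
-/
import Fermat.Agent.Lib.EtaUnit.Eta.Quot
import Fermat.Agent.Lib.EtaUnit.Eta.Root
import Fermat.Agent.Lib.EtaUnit.TExp.Misc

set_option autoImplicit false

namespace Fermat.Agent.Lib.EtaUnit

open UpperHalfPlane ModularCurve Fermat.Agent.S24 Fermat.Agent.S24.B
open Fermat.Agent.S28.EtaQuot
open scoped MatrixGroups Real Manifold

variable {ι : Type*} {s : Finset ι} {D : ι → ℕ} (r : ι → ℤ)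

theorem QuotSlash_continuous_smul (γ : SL(2, ℤ)) : Continuous fun τ : ℍ => γ • τ :=
  continuous_const_smul (γ : GL (Fin 2) ℝ)

theorem QuotSlash_continuous_denom (γ : SL(2, ℤ)) : Continuous fun τ : ℍ => denom γ τ := by
  unfold denom
  fun_prop

theorem QuotSlash_continuous_aff {a d : ℕ} (ha : 0 < a) (hd : 0 < d) (b : ℤ) :
    Continuous (aff a d b) := by
  rw [UpperHalfPlane.isOpenEmbedding_coe.isEmbedding.continuous_iff]
  have : (UpperHalfPlane.coe ∘ aff a d b) = fun τ : ℍ => ((a : ℂ) * τ + b) / d := by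
    funext τ
    exact coe_aff ha hd b τ
  rw [this]
  fun_prop

/-- The transform of an eta quotient of integral weight `k` under an ARBITRARY `γ ∈ SL(2,ℤ)`, up to an
algebraic constant.
PROOF.  `Fermat.Agent.S28.EtaQuot.etaQ_slash` computes the 24-th power of the left hand side
(`etaQuot_pow_24`, `ModularForm.SL_slash_apply`, `12 * ∑ r = 24 * k`):
`(lhs τ) ^ 24 = K * (∏ i, etaH (aff ..) ^ r i) ^ 24` (`affProd`, `etaH_pow_24`).  Both sides are
continuous (`mdiff_etaQuot`, `mdiff_etaH`, ..), the right one has no zeros: `exists_const_of_pow_eq`.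
The constant is algebraic by `exists_iota_eq_of_pow_eq` (`K` is a rational number). -/
theorem etaQuot_slash (hD : ∀ i ∈ s, 0 < D i) (k : ℤ) (hk : ∑ i ∈ s, r i = 2 * k) (γ : SL(2, ℤ)) :
    ∃ (b : ι → ℤ) (κ : Kbar),
      iota κ ^ 24 = ∏ i ∈ s, ((gD D (γ 1 0) i : ℂ) ^ (-12 : ℤ)) ^ r i ∧
      ∀ τ : ℍ, etaQuot s D r (γ • τ) * denom γ τ ^ (-k) =
        iota κ * ∏ i ∈ s, etaH (aff (gA D (γ 1 0) i) (gD D (γ 1 0) i) (b i) τ) ^ r i := by
  obtain ⟨b, hb⟩ := etaQ_slash (r := r) hD γ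
  have hA := gA_pos hD (γ 1 0)
  have hDp := gD_pos hD (γ 1 0)
  -- the two functions
  have hf : Continuous fun τ : ℍ => etaQuot s D r (γ • τ) * denom γ τ ^ (-k) := by
    refine ((mdiff_etaQuot r hD).continuous.comp (QuotSlash_continuous_smul γ)).mul ?_
    exact (QuotSlash_continuous_denom γ).zpow₀ _ fun τ => Or.inl (denom_ne_zero γ τ)
  have hg : Continuous fun τ : ℍ =>
      ∏ i ∈ s, etaH (aff (gA D (γ 1 0) i) (gD D (γ 1 0) i) (b i) τ) ^ r i := by
    refine continuous_finsetProd s fun i hi => ?_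
    exact (mdiff_etaH.continuous.comp (QuotSlash_continuous_aff (hA i hi) (hDp i hi) (b i))).zpow₀ _
      fun τ => Or.inl (etaH_ne_zero _)
  have hg0 : ∀ τ : ℍ,
      ∏ i ∈ s, etaH (aff (gA D (γ 1 0) i) (gD D (γ 1 0) i) (b i) τ) ^ r i ≠ 0 := fun τ =>
    Finset.prod_ne_zero_iff.mpr fun _ _ => zpow_ne_zero _ (etaH_ne_zero _)
  have h24 : ∀ τ : ℍ, (etaQuot s D r (γ • τ) * denom γ τ ^ (-k)) ^ 24 =
      (∏ i ∈ s, ((gD D (γ 1 0) i : ℂ) ^ (-12 : ℤ)) ^ r i) *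
        (∏ i ∈ s, etaH (aff (gA D (γ 1 0) i) (gD D (γ 1 0) i) (b i) τ) ^ r i) ^ 24 := by
    intro τ
    have h1 := hb τ
    rw [ModularForm.SL_slash_apply, hk] at h1
    have h2 : (denom γ τ ^ (-k)) ^ 24 = denom γ τ ^ (-(12 * (2 * k))) := by
      rw [← zpow_natCast, ← zpow_mul]
      congr 1
      push_cast
      ring
    have h3 : (∏ i ∈ s, etaH (aff (gA D (γ 1 0) i) (gD D (γ 1 0) i) (b i) τ) ^ r i) ^ 24 =
        affProd s (gA D (γ 1 0)) (gD D (γ 1 0)) b r τ := by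
      rw [affProd, ← Finset.prod_pow]
      refine Finset.prod_congr rfl fun i _ => ?_
      rw [← etaH_pow_24, ← zpow_natCast, ← zpow_natCast, ← zpow_mul, ← zpow_mul, mul_comm]
    rw [mul_pow, etaQuot_pow_24 r hD, h2, h1, h3]
  obtain ⟨κ', hκ', hfg⟩ := exists_const_of_pow_eq hf hg hg0 (n := 24) (by norm_num) h24
  have hK : (∏ i ∈ s, ((gD D (γ 1 0) i : ℂ) ^ (-12 : ℤ)) ^ r i) =
      iota (∏ i ∈ s, ((gD D (γ 1 0) i : Kbar) ^ (-12 : ℤ)) ^ r i) := by
    rw [map_prod]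
    refine Finset.prod_congr rfl fun i _ => ?_
    rw [map_zpow₀, map_zpow₀, map_natCast]
  obtain ⟨κ, rfl⟩ := exists_iota_eq_of_pow_eq (n := 24) (by norm_num) (hκ'.trans hK)
  exact ⟨b, κ, hκ', hfg⟩

end Fermat.Agent.Lib.EtaUnit
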