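/-
Lib/EtaUnit (architect helper213).  TASK EU-19.
Proof by helper21.
-/
import Fermat.Agent.Lib.EtaUnit.Eta.QuotSlash
import Fermat.Agent.Lib.EtaUnit.TExp.Tri

set_option autoImplicit false

namespace Fermat.Agent.Lib.EtaUnit

open UpperHalfPlane ModularCurve Fermat.Agent.S24 Fermat.Agent.S24.B
open Fermat.Agent.S28.EtaQuot
open scoped MatrixGroups Real Manifold

variable {ι : Type*} {s : Finset ι} {D : ι → ℕ} (r : ι → ℤ)

/-- `aff a d b τ` is the action of the upper triangular matrix `[[a, b], [0, d]]`. -/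
theorem aff_eq_triMat_smul {a d : ℕ} (ha : 0 < a) (hd : 0 < d) (b : ℤ) (τ : ℍ) :
    aff a d b τ = triMat (a : ℤ) b (d : ℤ) (by exact_mod_cast ha) (by exact_mod_cast hd) • τ := by
  apply UpperHalfPlane.ext
  rw [coe_aff ha hd, coe_triMat_smul]
  push_cast
  rfl

/-- Expansions of an eta quotient at all cusps.
PROOF.  `etaQuot_slash`; `aff a d b τ = triMat a b d _ _ • τ` (compare coordinates: `coe_aff`,
`coe_triMat_smul`); `hasTExp_etaH` + `exists_hasTExp_tri`; `HasTExp.zpow` (`etaH_ne_zero`);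
`exists_common_level`; `HasTExp.prod`; `HasTExp.const_mul`. -/
theorem exists_cusp_etaQuot (hD : ∀ i ∈ s, 0 < D i) (k : ℤ) (hk : ∑ i ∈ s, r i = 2 * k)
    (γ : SL(2, ℤ)) :
    ∃ (M : ℕ) (_ : NeZero M) (s' : LaurentSeries Kbar),
      HasTExp M (fun τ => etaQuot s D r (γ • τ) * denom γ τ ^ (-k)) s' := by
  classical
  obtain ⟨b, κ, -, h⟩ := etaQuot_slash r hD k hk γ
  have hA := gA_pos hD (γ 1 0)
  have hDD := gD_pos hD (γ 1 0)
  have h1 : ∀ i ∈ s, ∃ (M : ℕ) (_ : NeZero M) (s' : LaurentSeries Kbar),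
      HasTExp M (fun τ => etaH (aff (gA D (γ 1 0) i) (gD D (γ 1 0) i) (b i) τ) ^ r i) s' := by
    intro i hi
    obtain ⟨M', hM', s', hs'⟩ := exists_hasTExp_tri hasTExp_etaH (gA D (γ 1 0) i : ℤ) (b i)
      (gD D (γ 1 0) i : ℤ) (by exact_mod_cast hA i hi) (by exact_mod_cast hDD i hi)
    refine ⟨M', hM', s' ^ r i, ?_⟩
    have h2 := hs'.zpow (fun τ => etaH_ne_zero _) (r i)
    have h3 : (fun τ => etaH (aff (gA D (γ 1 0) i) (gD D (γ 1 0) i) (b i) τ) ^ r i) =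
        fun τ => etaH (triMat (gA D (γ 1 0) i : ℤ) (b i) (gD D (γ 1 0) i : ℤ)
          (by exact_mod_cast hA i hi) (by exact_mod_cast hDD i hi) • τ) ^ r i := by
      funext τ
      rw [aff_eq_triMat_smul (hA i hi) (hDD i hi)]
    rw [h3]
    exact h2
  obtain ⟨M, hM, h4⟩ := exists_common_level s h1
  choose! S hS using h4
  refine ⟨M, hM, HahnSeries.C κ * ∏ i ∈ s, S i, ?_⟩
  have h5 := (HasTExp.prod s hS).const_mul κ
  have h6 : (fun τ => etaQuot s D r (γ • τ) * denom γ τ ^ (-k)) = fun τ => iota κ *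
      ∏ i ∈ s, etaH (aff (gA D (γ 1 0) i) (gD D (γ 1 0) i) (b i) τ) ^ r i := by
    funext τ
    exact h τ
  rw [h6]
  exact h5

end Fermat.Agent.Lib.EtaUnit
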