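/-
Lib/EtaUnit (architect helper213).  TASK EU-17.
SKELETON FILE: the statement is a frozen interface; the task owner replaces the `sorry`.
-/
import Fermat.Agent.Lib.EtaUnit.Eta.Quot
import Fermat.Agent.Lib.EtaUnit.TExp.Misc

set_option autoImplicit false

namespace Fermat.Agent.Lib.EtaUnit

open UpperHalfPlane ModularCurve Fermat.Agent.S24 Fermat.Agent.S24.B
open scoped MatrixGroups Real Manifold

variable {ι : Type*} {s : Finset ι} {D : ι → ℕ} (r : ι → ℤ)

/-- `toL` as a ring homomorphism. -/
noncomputable def toLHom : PowerSeries ℤ →+* LaurentSeries Kbar :=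
  (HahnSeries.ofPowerSeries ℤ Kbar).comp (PowerSeries.map (Int.castRingHom Kbar))

theorem toLHom_apply (P : PowerSeries ℤ) : toLHom P = toL P := rfl

open Fermat.Agent.Lib.JExpansion in
/-- Evaluation of an expanded power series. -/
theorem ev_expand {d : ℕ} (hd : d ≠ 0) {q : ℂ} {p : PowerSeries ℂ} {v : ℂ}
    (h : Ev (q ^ d) p v) : Ev q (PowerSeries.expand d hd p) v := by
  unfold Ev at h ⊢
  have hinj : Function.Injective (fun m : ℕ => d * m) := fun a b hab =>
    Nat.eq_of_mul_eq_mul_left (Nat.pos_of_ne_zero hd) hab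
  refine (Function.Injective.hasSum_iff
    (f := fun n : ℕ => PowerSeries.coeff n (PowerSeries.expand d hd p) * q ^ n) hinj ?_).mp ?_
  · intro n hn
    have hnd : ¬ d ∣ n := fun ⟨m, hm⟩ => hn ⟨m, hm.symm⟩
    rw [PowerSeries.coeff_expand_of_not_dvd d hd p hnd, zero_mul]
  · convert h using 2 with m
    simp only [Function.comp_apply]
    rw [PowerSeries.coeff_expand_mul, pow_mul]

open Fermat.Agent.Lib.JExpansion in
/-- The expansion of `τ ↦ ∏ (1 - q ^ (d n))`. -/
theorem hasTExp_eulerFun_dil {d : ℕ} (hd : d ≠ 0) :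
    HasTExp 1 (fun τ : ℍ => eulerFun (Function.Periodic.qParam 1 ((d : ℂ) * τ)))
      (toL (PowerSeries.expand d hd etaProd)) := by
  have h := Fermat.Agent.GAL.M.hasTExp_of_ev (N := 1) (R := fun q => eulerFun (q ^ d))
    (r := (PowerSeries.expand d hd etaProd).map (Int.castRingHom Kbar)) (fun q hq => by
      have hq' : ‖q ^ d‖ < 1 := by
        rw [norm_pow]
        exact pow_lt_one₀ (norm_nonneg _) hq hd
      have h1 := ev_expand hd (ev_eulerFun hq')
      have h2 : PowerSeries.map iota
          ((PowerSeries.expand d hd etaProd).map (Int.castRingHom Kbar)) =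
          PowerSeries.expand d hd (toC etaProd) := by
        rw [toC, PowerSeries.map_expand, PowerSeries.map_expand]
        congr 1
        ext n
        simp
      rw [h2]
      exact h1)
  have hfun : (fun τ : ℍ => eulerFun (Function.Periodic.qParam 1 ((d : ℂ) * τ))) =
      fun τ : ℍ => (fun q => eulerFun (q ^ d)) (Function.Periodic.qParam ((1 : ℕ) : ℝ) τ) := by
    funext τ
    show eulerFun _ = eulerFun _
    congr 1
    simp only [Function.Periodic.qParam, Nat.cast_one]
    rw [← Complex.exp_nat_mul]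
    congr 1
    ring
  rw [hfun]
  exact h

/-- The `q`-expansion at `∞` of an eta quotient with `∑ r i * D i = 24 n`: `qⁿ * (1 + q ℤ[[q]])`.
PROOF.  By `eta_eq`, `etaQuot τ = qⁿ ∏ i, eulerFun (q ^ D i) ^ r i`.  `eulerFun (q ^ d)` is the sum of the
integral power series `E_d := etaProd` with `X` replaced by `X ^ d` (define it by its coefficients, or as
`PowerSeries.subst`/`evalNegHom`-free: `PowerSeries.mk fun n => if d ∣ n then coeff (n / d) etaProd else 0`),
constant coefficient `1` (`Fermat.Agent.Lib.JExpansion.ev_eulerFun`).  Take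
`P = ∏ i, (E_(D i) or its inverse `PowerSeries.invOfUnit _ 1`) ^ |r i|`.  For the inverse use
`HasTExp.inv` / `HasTExp.zpow` and the fact that `toL` is a ring homomorphism, so
`toL (invOfUnit E 1) = (toL E)⁻¹`. -/
theorem exists_exp_etaQuot (hD : ∀ i ∈ s, 0 < D i) (n : ℕ)
    (h24 : ∑ i ∈ s, r i * (D i : ℤ) = 24 * n) :
    ∃ P : PowerSeries ℤ, PowerSeries.constantCoeff P = 1 ∧
      HasTExp 1 (etaQuot s D r) (HahnSeries.single (n : ℤ) (1 : Kbar) * toL P) := by
  classical
  -- the units `E_d`
  have hunit : ∀ d : ℕ, ∃ u : (PowerSeries ℤ)ˣ, PowerSeries.constantCoeff (u : PowerSeries ℤ) = 1 ∧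
      ∀ hd : d ≠ 0, (u : PowerSeries ℤ) = PowerSeries.expand d hd etaProd := by
    intro d
    by_cases hd : d = 0
    · exact ⟨1, by simp, fun h => absurd hd h⟩
    · have hc : PowerSeries.constantCoeff (PowerSeries.expand d hd etaProd) = 1 := by
        rw [PowerSeries.constantCoeff_expand, constantCoeff_etaProd]
      have hu : IsUnit (PowerSeries.expand d hd etaProd) := by
        rw [PowerSeries.isUnit_iff_constantCoeff, hc]
        exact isUnit_one
      exact ⟨hu.unit, hc, fun _ => rfl⟩
  choose u hu1 hu using hunit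
  set U : (PowerSeries ℤ)ˣ := ∏ i ∈ s, u (D i) ^ r i with hU
  refine ⟨(U : PowerSeries ℤ), ?_, ?_⟩
  · have h1 : Units.map (PowerSeries.constantCoeff (R := ℤ)).toMonoidHom U = 1 := by
      rw [hU, map_prod]
      refine Finset.prod_eq_one fun i _ => ?_
      rw [map_zpow]
      have : Units.map (PowerSeries.constantCoeff (R := ℤ)).toMonoidHom (u (D i)) = 1 :=
        Units.ext (hu1 (D i))
      rw [this, one_zpow]
    exact congrArg Units.val h1
  · have htoL : toL (U : PowerSeries ℤ) = ∏ i ∈ s, toL (u (D i) : PowerSeries ℤ) ^ r i := by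
      have h1 : ((Units.map toLHom.toMonoidHom U : (LaurentSeries Kbar)ˣ) : LaurentSeries Kbar) =
          ∏ i ∈ s, toL (u (D i) : PowerSeries ℤ) ^ r i := by
        rw [hU, map_prod, Units.coe_prod]
        refine Finset.prod_congr rfl fun i _ => ?_
        rw [map_zpow, Units.val_zpow_eq_zpow_val]
        rfl
      exact h1
    have hne : ∀ i ∈ s, ∀ τ : ℍ, Fermat.Agent.Lib.JExpansion.eulerFun
        (Function.Periodic.qParam 1 ((D i : ℂ) * τ)) ≠ 0 := by
      intro i hi τ
      have him : 0 < ((D i : ℂ) * τ).im := by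
        have : ((D i : ℂ) * τ).im = (D i : ℝ) * τ.im := by simp
        rw [this]
        exact mul_pos (by exact_mod_cast hD i hi) τ.im_pos
      have h1 := ModularForm.eta_ne_zero him
      rw [eta_eq] at h1
      exact right_ne_zero_of_mul h1
    have h2 : HasTExp 1 (fun τ : ℍ => ∏ i ∈ s, Fermat.Agent.Lib.JExpansion.eulerFun
        (Function.Periodic.qParam 1 ((D i : ℂ) * τ)) ^ r i)
        (∏ i ∈ s, toL (u (D i) : PowerSeries ℤ) ^ r i) := by
      refine HasTExp.prod s fun i hi => ?_
      have hDi : D i ≠ 0 := (hD i hi).ne'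
      have h3 := hasTExp_eulerFun_dil hDi
      rw [← hu (D i) hDi] at h3
      exact h3.zpow (hne i hi) (r i)
    have h4 := (HasTExp.single (N := 1) (n : ℤ) 1).mul h2
    rw [htoL]
    have hfun : etaQuot s D r = (fun τ : ℍ => iota 1 * Function.Periodic.qParam ((1 : ℕ) : ℝ) τ ^ (n : ℤ)) *
        fun τ : ℍ => ∏ i ∈ s, Fermat.Agent.Lib.JExpansion.eulerFun
          (Function.Periodic.qParam 1 ((D i : ℂ) * τ)) ^ r i := by
      funext τ
      rw [Pi.mul_apply, map_one, one_mul]
      unfold etaQuot
      simp only [eta_eq, mul_zpow, Finset.prod_mul_distrib]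
      congr 1
      simp only [Function.Periodic.qParam, Nat.cast_one]
      simp only [← Complex.exp_int_mul]
      rw [← Complex.exp_sum]
      congr 1
      have h24' : (∑ i ∈ s, (r i : ℂ) * (D i : ℂ)) = 24 * (n : ℂ) := by exact_mod_cast h24
      have : ∑ i ∈ s, (r i : ℂ) * (2 * ↑π * Complex.I * ((D i : ℂ) * ↑τ) / ((24 : ℝ) : ℂ)) =
          (∑ i ∈ s, (r i : ℂ) * (D i : ℂ)) * (2 * ↑π * Complex.I * ↑τ / 24) := by
        rw [Finset.sum_mul]
        refine Finset.sum_congr rfl fun i _ => ?_
        push_cast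
        ring
      rw [this, h24']
      push_cast
      ring
    rw [hfun]
    exact h4

end Fermat.Agent.Lib.EtaUnit
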